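/-
Stickelberger for degree-one primes of `ℚ(ζ_p)` via Jacobi sums (CFT project, S14).

For a prime `𝔮` of `𝓞 K`, `K = ℚ(ζ_p)`, of absolute norm a prime `ℓ ≠ p`, the Jacobi sum
`J(χ,χ)` of the `p`-th power residue character `χ` modulo `𝔮` generates
`∏_{0 < c < p/2} σ_c⁻¹(𝔮)`.
-/
import Mathlib
import Fermat.Prelude.Def_Stickelberger_Basic

set_option autoImplicit false

open scoped NumberField

namespace Fermat.Agent.CFT.Stick

section PowerSum

variable {F : Type*} [Field F] [Fintype F]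

/-- `∑_x x^i (1-x)^j = 0` over a finite field as soon as `i + j < #F - 1`. -/
theorem sum_pow_mul_one_sub_pow (i j : ℕ) (h : i + j < Fintype.card F - 1) :
    ∑ x : F, x ^ i * (1 - x) ^ j = 0 := by
  have key : ∀ x : F, x ^ i * (1 - x) ^ j =
      ∑ t ∈ Finset.range (j + 1), ((-1 : F) ^ t * (j.choose t : F)) * x ^ (i + t) := by
    intro x
    have h1 : (1 - x) ^ j = (-x + 1) ^ j := by ring
    rw [h1, add_pow, Finset.mul_sum]
    refine Finset.sum_congr rfl fun t _ => ?_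
    rw [one_pow, neg_pow, pow_add]
    ring
  simp_rw [key]
  rw [Finset.sum_comm]
  refine Finset.sum_eq_zero fun t ht => ?_
  rw [← Finset.mul_sum, FiniteField.sum_pow_lt_card_sub_one, mul_zero]
  have := Finset.mem_range.mp ht
  omega

end PowerSum

section ResidueChar

variable {F : Type*} [Field F] [Fintype F] [DecidableEq F] {R : Type*} [CommRing R]

/-- The `p`-th power residue character: if `ζ : R` is a primitive `p`-th root of unity whose image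
under `φ : R →+* F` (`F` a finite field) is still primitive, there is a multiplicative character
`χ : F → R` with values in `{0} ∪ ⟨ζ⟩` lifting `x ↦ x ^ ((#F - 1) / p)`. -/
theorem exists_residue_char (p : ℕ) [hp : Fact p.Prime] (φ : R →+* F) (ζ : R)
    (hζ : IsPrimitiveRoot ζ p) (hz : IsPrimitiveRoot (φ ζ) p) :
    p ∣ Fintype.card F - 1 ∧
    ∃ χ : MulChar F R, (∀ x : F, x ≠ 0 → ∃ k : ℕ, χ x = ζ ^ k) ∧
      (∀ x : F, φ (χ x) = x ^ ((Fintype.card F - 1) / p)) := by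
  classical
  have hp0 : p ≠ 0 := hp.out.ne_zero
  have : NeZero p := ⟨hp0⟩
  -- `p ∣ #F - 1`
  have hdvd : p ∣ Fintype.card F - 1 := by
    have hz0 : φ ζ ≠ 0 := hz.ne_zero hp0
    have h1 : (φ ζ) ^ (Fintype.card F - 1) = 1 := FiniteField.pow_card_sub_one_eq_one _ hz0
    exact (hz.pow_eq_one_iff_dvd _).mp h1
  refine ⟨hdvd, ?_⟩
  set m := (Fintype.card F - 1) / p with hm
  have hpm : p * m = Fintype.card F - 1 := Nat.mul_div_cancel' hdvd
  have hcard : 1 < Fintype.card F := Fintype.one_lt_card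
  have hm0 : m ≠ 0 := by
    rintro h0
    rw [h0, mul_zero] at hpm
    omega
  -- a generator of `Fˣ`
  obtain ⟨g, hg⟩ := IsCyclic.exists_generator (α := Fˣ)
  have hgm : ((g : F) ^ m) ^ p = 1 := by
    rw [← pow_mul, mul_comm, hpm]
    exact FiniteField.pow_card_sub_one_eq_one _ g.ne_zero
  obtain ⟨k, -, hk⟩ := hz.eq_pow_of_pow_eq_one hgm
  -- the root of unity `ζ ^ k` as a unit
  let ζu : Rˣ := (hζ.isUnit hp0).unit
  have hζu : (ζu : R) = ζ := IsUnit.unit_spec _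
  let μ : Rˣ := ζu ^ k
  have hμ : μ ∈ rootsOfUnity (Fintype.card Fˣ) R := by
    rw [mem_rootsOfUnity, Fintype.card_units, ← hpm]
    ext
    simp only [μ, Units.val_pow_eq_pow_val, hζu, Units.val_one]
    rw [← pow_mul, mul_comm, mul_assoc, pow_mul, hζ.pow_eq_one, one_pow]
  let χ : MulChar F R := MulChar.ofRootOfUnity hμ hg
  have hχg : χ g = ζ ^ k := by
    have := MulChar.ofRootOfUnity_spec hμ hg
    simp only [χ, this, μ, Units.val_pow_eq_pow_val, hζu]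
  -- every nonzero `x` is a natural power of `g`
  have hpow : ∀ x : F, x ≠ 0 → ∃ n : ℕ, x = (g : F) ^ n := by
    intro x hx
    have hmem : Units.mk0 x hx ∈ Subgroup.zpowers g := hg _
    rw [← (isOfFinOrder_of_finite g).mem_powers_iff_mem_zpowers] at hmem
    obtain ⟨n, hn⟩ := hmem
    refine ⟨n, ?_⟩
    have := congrArg (fun u : Fˣ => (u : F)) hn
    simpa using this.symm
  refine ⟨χ, ?_, ?_⟩
  · intro x hx
    obtain ⟨n, rfl⟩ := hpow x hx
    exact ⟨k * n, by rw [map_pow, hχg, pow_mul]⟩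
  · intro x
    by_cases hx : x = 0
    · subst hx
      rw [MulChar.map_zero, map_zero, zero_pow hm0]
    · obtain ⟨n, rfl⟩ := hpow x hx
      rw [map_pow, hχg, map_pow, map_pow, hk, ← pow_mul, ← pow_mul, mul_comm]

end ResidueChar

section Norm

variable {R : Type*} [CommRing R] [IsDedekindDomain R] [Module.Free ℤ R]

/-- Ring automorphisms preserve the absolute norm of ideals. -/
theorem absNorm_map_equiv (t : R ≃+* R) (I : Ideal R) :
    Ideal.absNorm (I.map (t : R →+* R)) = Ideal.absNorm I := by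
  rw [Ideal.absNorm_apply, Ideal.absNorm_apply, Submodule.cardQuot_apply, Submodule.cardQuot_apply]
  exact (Nat.card_congr (Ideal.quotientEquiv I (I.map (t : R →+* R)) t rfl).toEquiv).symm

end Norm

section ExponentSet

/-- For an odd prime `p`, the Prelude's `Stickelberger.exponentSet p` is `{1, …, (p-1)/2}`. -/
theorem exponentSet_eq_Icc {p : ℕ} (hodd : p % 2 = 1) :
    Stickelberger.exponentSet p = Finset.Icc 1 ((p - 1) / 2) := by
  ext c
  rw [Stickelberger.mem_exponentSet, Finset.mem_Icc]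
  omega

theorem card_exponentSet {p : ℕ} (hodd : p % 2 = 1) :
    (Stickelberger.exponentSet p).card = (p - 1) / 2 := by
  rw [exponentSet_eq_Icc hodd, Nat.card_Icc]
  omega

end ExponentSet

/-- `(-1 : ZMod p).val = p - 1`. -/
theorem zmod_neg_one_val (p : ℕ) (hp0 : p ≠ 0) : (-1 : ZMod p).val = p - 1 := by
  cases p with
  | zero => exact absurd rfl hp0
  | succ n => exact ZMod.val_neg_one n

section Cyclotomic

open Stickelberger

variable {p : ℕ} [hp : Fact p.Prime] {K : Type*} [Field K] [NumberField K]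
  [hK : IsCyclotomicExtension {p} ℚ K]

attribute [local instance] Ideal.Quotient.field

omit hp hK in
/-- Modulo an ideal of prime absolute norm every integer of `K` is congruent to a rational
integer. -/
theorem exists_int_sub_mem (𝔮 : Ideal (𝓞 K)) {ℓ : ℕ} (hℓ : ℓ.Prime)
    (hN : Ideal.absNorm 𝔮 = ℓ) (x : 𝓞 K) : ∃ n : ℤ, x - n ∈ 𝔮 := by
  have hcard : Nat.card (𝓞 K ⧸ 𝔮) = ℓ := by
    rw [← hN, Ideal.absNorm_apply, Submodule.cardQuot_apply]
  haveI : Fact (Nat.card (𝓞 K ⧸ 𝔮)).Prime := ⟨hcard ▸ hℓ⟩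
  have hne : 𝔮 ≠ ⊤ := by
    rintro rfl
    rw [Ideal.absNorm_top] at hN
    exact hℓ.one_lt.ne' hN.symm
  have h1 : (1 : 𝓞 K ⧸ 𝔮) ≠ 0 := by
    intro h
    apply hne
    rw [Ideal.eq_top_iff_one, ← Ideal.Quotient.eq_zero_iff_mem]
    exact h
  have htop : AddSubgroup.zmultiples (1 : 𝓞 K ⧸ 𝔮) = ⊤ := by
    rcases (AddSubgroup.zmultiples (1 : 𝓞 K ⧸ 𝔮)).eq_bot_or_eq_top_of_prime_card with h | h
    · exact absurd (AddSubgroup.zmultiples_eq_bot.mp h) h1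
    · exact h
  have hmem : Ideal.Quotient.mk 𝔮 x ∈ AddSubgroup.zmultiples (1 : 𝓞 K ⧸ 𝔮) := by
    rw [htop]; trivial
  obtain ⟨n, hn⟩ := AddSubgroup.mem_zmultiples_iff.mp hmem
  refine ⟨n, ?_⟩
  rw [← Ideal.Quotient.eq_zero_iff_mem, map_sub, map_intCast, ← hn]
  simp

/-- The image of `ζ` modulo a prime of norm `ℓ ≠ p` is a primitive `p`-th root of unity. -/
theorem mk_toInteger_isPrimitiveRoot {ζ : K} (hζ : IsPrimitiveRoot ζ p)
    (𝔮 : Ideal (𝓞 K)) {ℓ : ℕ} (hℓ : ℓ.Prime) (hℓp : ℓ ≠ p) (hN : Ideal.absNorm 𝔮 = ℓ) :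
    haveI : NeZero p := ⟨hp.out.ne_zero⟩
    IsPrimitiveRoot (Ideal.Quotient.mk 𝔮 hζ.toInteger) p := by
  have : NeZero p := ⟨hp.out.ne_zero⟩
  refine hζ.toInteger_isPrimitiveRoot.idealQuotient_mk ?_ ?_
  · rw [hN]; exact hℓ.one_lt.ne'
  · rw [hN]; exact (Nat.coprime_primes hℓ hp.out).mpr hℓp

omit hp hK in
/-- Galois automorphisms act on `ζ` in `𝓞 K` as on `ζ` in `K`. -/
theorem galRestrict_toInteger {ζ : K} {n : ℕ} [NeZero n] (hζ : IsPrimitiveRoot ζ n)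
    (σ : K ≃ₐ[ℚ] K) (c : ℕ) (hσ : σ ζ = ζ ^ c) :
    galRestrict ℤ ℚ K (𝓞 K) σ hζ.toInteger = hζ.toInteger ^ c := by
  apply NumberField.RingOfIntegers.ext
  have h := algebraMap_galRestrict_apply ℤ σ hζ.toInteger
  have h2 : algebraMap (𝓞 K) K hζ.toInteger = ζ := rfl
  rw [h2, hσ] at h
  rw [show ((galRestrict ℤ ℚ K (𝓞 K) σ hζ.toInteger : 𝓞 K) : K) =
    algebraMap (𝓞 K) K (galRestrict ℤ ℚ K (𝓞 K) σ hζ.toInteger) from rfl, h]
  rw [show ((hζ.toInteger ^ c : 𝓞 K) : K) = algebraMap (𝓞 K) K (hζ.toInteger ^ c) from rfl,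
    map_pow, h2]

/-- Core of the Jacobi sum computation for a degree one prime `𝔮` of norm `ℓ ≠ p`: there is
`J ∈ 𝓞 K` of absolute norm `ℓ ^ ((p-1)/2)` such that `σ_c J ∈ 𝔮` for all `0 < c < p/2`. -/
theorem jacobi_core (hp2 : p ≠ 2) {ζ : K} (hζ : IsPrimitiveRoot ζ p)
    (𝔮 : Ideal (𝓞 K)) [h𝔮 : 𝔮.IsPrime] {ℓ : ℕ} (hℓ : ℓ.Prime) (hℓp : ℓ ≠ p)
    (hN : Ideal.absNorm 𝔮 = ℓ) :
    ∃ J : 𝓞 K, Ideal.absNorm (Ideal.span {J}) = ℓ ^ ((p - 1) / 2) ∧
      ∀ (c : ℕ) (σ : K ≃ₐ[ℚ] K), c ∈ exponentSet p → σ ζ = ζ ^ c →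
        galRestrict ℤ ℚ K (𝓞 K) σ J ∈ 𝔮 := by
  classical
  have hp0 : p ≠ 0 := hp.out.ne_zero
  have : NeZero p := ⟨hp0⟩
  have hp3 : 3 ≤ p := by
    have := hp.out.two_le
    omega
  have hne : 𝔮 ≠ ⊥ := by
    rintro rfl
    rw [Ideal.absNorm_bot] at hN
    exact hℓ.ne_zero hN.symm
  haveI hmax : 𝔮.IsMaximal := h𝔮.isMaximal hne
  haveI : Finite (𝓞 K ⧸ 𝔮) := (Ideal.absNorm_ne_zero_iff 𝔮).mp (by rw [hN]; exact hℓ.ne_zero)
  haveI : Fintype (𝓞 K ⧸ 𝔮) := Fintype.ofFinite _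
  have hcard : Fintype.card (𝓞 K ⧸ 𝔮) = ℓ := by
    rw [← Nat.card_eq_fintype_card, ← hN, Ideal.absNorm_apply, Submodule.cardQuot_apply]
  set ζ' : 𝓞 K := hζ.toInteger with hζ'
  have hζ'prim : IsPrimitiveRoot ζ' p := hζ.toInteger_isPrimitiveRoot
  have hz : IsPrimitiveRoot (Ideal.Quotient.mk 𝔮 ζ') p :=
    mk_toInteger_isPrimitiveRoot hζ 𝔮 hℓ hℓp hN
  obtain ⟨hdvd, χ, hχ1, hχ2⟩ := exists_residue_char p (Ideal.Quotient.mk 𝔮) ζ' hζ'prim hz
  rw [hcard] at hdvd hχ2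
  set m := (ℓ - 1) / p with hm
  have hpm : p * m = ℓ - 1 := Nat.mul_div_cancel' hdvd
  have hℓ2 : 2 ≤ ℓ := hℓ.two_le
  have hm0 : 0 < m := by
    rcases Nat.eq_zero_or_pos m with h0 | h0
    · rw [h0, mul_zero] at hpm
      have hℓ2' : ℓ = 2 ∨ 2 < ℓ := by omega
      omega
    · exact h0
  -- the action of Galois on the values of `χ`
  have hact : ∀ (c : ℕ) (σ : K ≃ₐ[ℚ] K), c ≠ 0 → σ ζ = ζ ^ c →
      ∀ x : 𝓞 K ⧸ 𝔮, galRestrict ℤ ℚ K (𝓞 K) σ (χ x) = (χ x) ^ c := by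
    intro c σ hc hσ x
    by_cases hx : x = 0
    · subst hx
      rw [MulChar.map_zero, map_zero, zero_pow hc]
    · obtain ⟨k, hk⟩ := hχ1 x hx
      rw [hk, map_pow, galRestrict_toInteger hζ σ c hσ, ← pow_mul, ← pow_mul, mul_comm]
  have hJact : ∀ (c : ℕ) (σ : K ≃ₐ[ℚ] K), c ≠ 0 → σ ζ = ζ ^ c →
      galRestrict ℤ ℚ K (𝓞 K) σ (jacobiSum χ χ) = ∑ x : 𝓞 K ⧸ 𝔮, (χ x) ^ c * (χ (1 - x)) ^ c := by
    intro c σ hc hσ
    rw [jacobiSum, map_sum]
    refine Finset.sum_congr rfl fun x _ => ?_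
    rw [map_mul, hact c σ hc hσ, hact c σ hc hσ]
  refine ⟨jacobiSum χ χ, ?_, ?_⟩
  · -- the norm of the Jacobi sum
    have hodd : p % 2 = 1 := hp.out.eq_two_or_odd.resolve_left hp2
    -- complex conjugation
    let σm : K ≃ₐ[ℚ] K := (IsCyclotomicExtension.Rat.galEquivZMod p K).symm (-1)
    have hσm : σm ζ = ζ ^ (p - 1) := by
      have h := IsCyclotomicExtension.Rat.galEquivZMod_apply_of_pow_eq p K σm hζ.pow_eq_one
      rw [h]
      congr 1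
      simp only [σm, MulEquiv.apply_symm_apply, Units.val_neg, Units.val_one]
      exact zmod_neg_one_val p hp0
    have hinv : ∀ x : 𝓞 K ⧸ 𝔮, χ⁻¹ x = (χ x) ^ (p - 1) := by
      intro x
      by_cases hx : x = 0
      · subst hx
        rw [MulChar.map_zero, MulChar.map_zero, zero_pow (by omega)]
      · obtain ⟨k, hk⟩ := hχ1 x hx
        have hne0 : χ x ≠ 0 := by
          rw [hk]; exact pow_ne_zero _ (hζ'prim.ne_zero hp0)
        apply mul_right_cancel₀ hne0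
        rw [MulChar.inv_apply', ← map_mul, inv_mul_cancel₀ hx, map_one, ← pow_succ,
          show p - 1 + 1 = p by omega, hk, ← pow_mul, mul_comm, pow_mul, hζ'prim.pow_eq_one,
          one_pow]
    have hJ' : galRestrict ℤ ℚ K (𝓞 K) σm (jacobiSum χ χ) = jacobiSum χ⁻¹ χ⁻¹ := by
      rw [hJact (p - 1) σm (by omega) hσm, jacobiSum]
      refine Finset.sum_congr rfl fun x _ => ?_
      rw [hinv, hinv]
    -- `χ` and `χ²` are nontrivial
    have hunit : ∀ (i : ℕ), (∀ x : (𝓞 K ⧸ 𝔮)ˣ, ((x : 𝓞 K ⧸ 𝔮)) ^ i = 1) → (ℓ - 1) ∣ i := by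
      intro i hi
      rw [← hcard]
      refine (FiniteField.forall_pow_eq_one_iff (𝓞 K ⧸ 𝔮) i).mp fun x => ?_
      ext
      simpa using hi x
    have hχne : χ ≠ 1 := by
      intro h1
      have : (ℓ - 1) ∣ m := by
        apply hunit
        intro x
        rw [← hχ2, h1, MulChar.one_apply x.isUnit, map_one]
      rw [← hpm] at this
      have := Nat.le_of_dvd hm0 this
      nlinarith
    have hχχne : χ * χ ≠ 1 := by
      intro h1
      have : (ℓ - 1) ∣ 2 * m := by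
        apply hunit
        intro x
        have h2 : (χ * χ) (x : 𝓞 K ⧸ 𝔮) = 1 := by rw [h1, MulChar.one_apply x.isUnit]
        rw [MulChar.mul_apply] at h2
        rw [two_mul, pow_add, ← hχ2, ← map_mul, h2, map_one]
      rw [← hpm] at this
      have := Nat.le_of_dvd (by omega) this
      nlinarith
    -- `J * J' = ℓ`
    have hinj : Function.Injective (algebraMap (𝓞 K) K) := NumberField.RingOfIntegers.coe_injective
    have hprod : jacobiSum χ χ * jacobiSum χ⁻¹ χ⁻¹ = (ℓ : 𝓞 K) := by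
      apply hinj
      rw [map_mul, ← jacobiSum_ringHomComp, ← jacobiSum_ringHomComp, ← MulChar.ringHomComp_inv,
        map_natCast, ← hcard]
      refine jacobiSum_mul_jacobiSum_inv ?_ ((MulChar.ringHomComp_ne_one_iff hinj).mpr hχne)
        ((MulChar.ringHomComp_ne_one_iff hinj).mpr hχne) ?_
      · rw [ringChar.eq_zero]
        exact (CharP.ringChar_ne_zero_of_finite (𝓞 K ⧸ 𝔮)).symm
      · rw [← MulChar.ringHomComp_mul]
        exact (MulChar.ringHomComp_ne_one_iff hinj).mpr hχχne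
    -- norms
    have hNJ' : Ideal.absNorm (Ideal.span {jacobiSum χ⁻¹ χ⁻¹}) =
        Ideal.absNorm (Ideal.span {jacobiSum χ χ}) := by
      rw [← hJ', ← absNorm_map_equiv (galRestrict ℤ ℚ K (𝓞 K) σm).toRingEquiv
        (Ideal.span {jacobiSum χ χ}), Ideal.map_span, Set.image_singleton]
      rfl
    have hfin : Module.finrank ℤ (𝓞 K) = p - 1 := by
      rw [NumberField.RingOfIntegers.rank, IsCyclotomicExtension.finrank K
        (Polynomial.cyclotomic.irreducible_rat (Nat.pos_of_ne_zero hp0)), Nat.totient_prime hp.out]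
    have hmul : Ideal.absNorm (Ideal.span {jacobiSum χ χ}) *
        Ideal.absNorm (Ideal.span {jacobiSum χ⁻¹ χ⁻¹}) = ℓ ^ (p - 1) := by
      rw [← map_mul, Ideal.span_singleton_mul_span_singleton, hprod, Ideal.absNorm_span_natCast,
        hfin]
    have hsq : Ideal.absNorm (Ideal.span {jacobiSum χ χ}) ^ 2 = (ℓ ^ ((p - 1) / 2)) ^ 2 := by
      rw [hNJ'] at hmul
      rw [sq, hmul, ← pow_mul]
      congr 1
      omega
    exact Nat.pow_left_injective two_ne_zero hsq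
  · intro c σ hc hσ
    rw [mem_exponentSet] at hc
    rw [hJact c σ (by omega) hσ, ← Ideal.Quotient.eq_zero_iff_mem, map_sum]
    have : ∀ x : 𝓞 K ⧸ 𝔮, Ideal.Quotient.mk 𝔮 ((χ x) ^ c * (χ (1 - x)) ^ c) =
        x ^ (m * c) * (1 - x) ^ (m * c) := by
      intro x
      rw [map_mul, map_pow, map_pow, hχ2, hχ2, ← pow_mul, ← pow_mul]
    simp_rw [this]
    apply sum_pow_mul_one_sub_pow
    rw [hcard, ← hpm]
    have h2 : 2 * c + 1 ≤ p := by omega
    calc m * c + m * c = m * (2 * c) := by ring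
      _ < m * (2 * c + 1) := by nlinarith
      _ ≤ m * p := Nat.mul_le_mul_left m h2
      _ = p * m := by ring

omit hp hK in
/-- Galois conjugates of an ideal have the same absolute norm. -/
theorem absNorm_map_galRestrict (𝔮 : Ideal (𝓞 K)) (σ : K ≃ₐ[ℚ] K) :
    Ideal.absNorm (𝔮.map (galRestrict ℤ ℚ K (𝓞 K) σ)) = Ideal.absNorm 𝔮 :=
  absNorm_map_equiv (galRestrict ℤ ℚ K (𝓞 K) σ).toRingEquiv 𝔮

omit hp hK in
/-- Galois conjugates of a maximal ideal are maximal. -/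
theorem isMaximal_map_galRestrict (𝔮 : Ideal (𝓞 K)) (hmax : 𝔮.IsMaximal) (σ : K ≃ₐ[ℚ] K) :
    (𝔮.map (galRestrict ℤ ℚ K (𝓞 K) σ)).IsMaximal :=
  Ideal.IsMaximal.map_bijective
    ((galRestrict ℤ ℚ K (𝓞 K) σ).toRingEquiv : 𝓞 K →+* 𝓞 K)
    (galRestrict ℤ ℚ K (𝓞 K) σ).toRingEquiv.bijective hmax

/-- The conjugates `σ_c⁻¹(𝔮)`, `0 < c < p`, of a degree-one prime `𝔮 ∤ p` are pairwise distinct.
Here `τ c` is any automorphism with `(τ c ζ) ^ c = ζ`. -/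
theorem map_galRestrict_inj {ζ : K} (hζ : IsPrimitiveRoot ζ p)
    (𝔮 : Ideal (𝓞 K)) {ℓ : ℕ} (hℓ : ℓ.Prime) (hℓp : ℓ ≠ p)
    (hN : Ideal.absNorm 𝔮 = ℓ) {c c' : ℕ} (hc : c < p) (hc' : c' < p)
    (τ τ' : K ≃ₐ[ℚ] K) (hτ : (τ ζ) ^ c = ζ) (hτ' : (τ' ζ) ^ c' = ζ)
    (heq : 𝔮.map (galRestrict ℤ ℚ K (𝓞 K) τ) = 𝔮.map (galRestrict ℤ ℚ K (𝓞 K) τ')) :
    c = c' := by
  have hp0 : p ≠ 0 := hp.out.ne_zero
  have : NeZero p := ⟨hp0⟩
  have htζ : ∀ (ρ : K ≃ₐ[ℚ] K) (e : ℕ), (ρ ζ) ^ e = ζ →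
      (galRestrict ℤ ℚ K (𝓞 K) ρ hζ.toInteger) ^ e = hζ.toInteger := by
    intro ρ e hρ
    apply NumberField.RingOfIntegers.ext
    have h := algebraMap_galRestrict_apply ℤ ρ hζ.toInteger
    have h2 : algebraMap (𝓞 K) K hζ.toInteger = ζ := rfl
    rw [h2] at h
    rw [show (((galRestrict ℤ ℚ K (𝓞 K) ρ hζ.toInteger) ^ e : 𝓞 K) : K) =
      algebraMap (𝓞 K) K ((galRestrict ℤ ℚ K (𝓞 K) ρ hζ.toInteger) ^ e) from rfl,
      map_pow, h, hρ]
    rfl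
  have hz := mk_toInteger_isPrimitiveRoot hζ (𝔮.map (galRestrict ℤ ℚ K (𝓞 K) τ)) hℓ hℓp
    ((absNorm_map_galRestrict 𝔮 τ).trans hN)
  obtain ⟨n, hn⟩ := exists_int_sub_mem 𝔮 hℓ hN (hζ.toInteger ^ (c * c'))
  have h1 : galRestrict ℤ ℚ K (𝓞 K) τ (hζ.toInteger ^ (c * c') - n) ∈
      𝔮.map (galRestrict ℤ ℚ K (𝓞 K) τ) := Ideal.mem_map_of_mem _ hn
  have h2 : galRestrict ℤ ℚ K (𝓞 K) τ' (hζ.toInteger ^ (c * c') - n) ∈
      𝔮.map (galRestrict ℤ ℚ K (𝓞 K) τ) := by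
    rw [heq]; exact Ideal.mem_map_of_mem _ hn
  have h3 := Ideal.sub_mem _ h1 h2
  rw [map_sub, map_sub, map_intCast, map_intCast, sub_sub_sub_cancel_right, map_pow, map_pow,
    pow_mul, htζ τ c hτ, mul_comm c c', pow_mul, htζ τ' c' hτ'] at h3
  rw [← Ideal.Quotient.eq_zero_iff_mem, map_sub, map_pow, map_pow, sub_eq_zero] at h3
  exact (hz.pow_inj hc' hc h3).symm

/-- **Stickelberger for degree-one primes.**  Let `K = ℚ(ζ_p)`, `p` an odd prime, and `𝔮` a prime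
of `𝓞 K` of absolute norm a prime `ℓ ≠ p`.  If `τ c` denotes an automorphism with
`(τ c ζ) ^ c = ζ` (i.e. `τ c = σ_c⁻¹`), then `∏_{0 < c < p/2} τ_c(𝔮)` is a principal ideal
(generated by a Jacobi sum). -/
theorem exists_jacobi_generator (hp2 : p ≠ 2) {ζ : K} (hζ : IsPrimitiveRoot ζ p)
    (𝔮 : Ideal (𝓞 K)) [h𝔮 : 𝔮.IsPrime] {ℓ : ℕ} (hℓ : ℓ.Prime) (hℓp : ℓ ≠ p)
    (hN : Ideal.absNorm 𝔮 = ℓ) (τ : ℕ → (K ≃ₐ[ℚ] K))
    (hτ : ∀ c ∈ exponentSet p, (τ c ζ) ^ c = ζ) :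
    ∃ J : 𝓞 K, J ≠ 0 ∧
      ∏ c ∈ exponentSet p, 𝔮.map (galRestrict ℤ ℚ K (𝓞 K) (τ c)) = Ideal.span {J} := by
  classical
  have hp0 : p ≠ 0 := hp.out.ne_zero
  have : NeZero p := ⟨hp0⟩
  have hodd : p % 2 = 1 := hp.out.eq_two_or_odd.resolve_left hp2
  obtain ⟨J, hJN, hJmem⟩ := jacobi_core hp2 hζ 𝔮 hℓ hℓp hN
  have hne : 𝔮 ≠ ⊥ := by
    rintro rfl
    rw [Ideal.absNorm_bot] at hN
    exact hℓ.ne_zero hN.symm
  have hmax : 𝔮.IsMaximal := h𝔮.isMaximal hne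
  -- notation: `t c` is the ring automorphism of `𝓞 K` induced by `τ c`
  let t : ℕ → (𝓞 K ≃+* 𝓞 K) := fun c => (galRestrict ℤ ℚ K (𝓞 K) (τ c)).toRingEquiv
  have ht : ∀ c, 𝔮.map (galRestrict ℤ ℚ K (𝓞 K) (τ c)) = 𝔮.map (t c : 𝓞 K →+* 𝓞 K) :=
    fun c => rfl
  have hNmap : ∀ c, Ideal.absNorm (𝔮.map (galRestrict ℤ ℚ K (𝓞 K) (τ c))) = ℓ := by
    intro c
    rw [ht, absNorm_map_equiv, hN]
  have hmaxmap : ∀ c, (𝔮.map (galRestrict ℤ ℚ K (𝓞 K) (τ c))).IsMaximal := by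
    intro c
    rw [ht]
    exact Ideal.IsMaximal.map_bijective (t c : 𝓞 K →+* 𝓞 K) (t c).bijective hmax
  -- `t c ζ' ^ c = ζ'`
  have htζ : ∀ c ∈ exponentSet p, (galRestrict ℤ ℚ K (𝓞 K) (τ c) hζ.toInteger) ^ c =
      hζ.toInteger := by
    intro c hc
    apply NumberField.RingOfIntegers.ext
    have h := algebraMap_galRestrict_apply ℤ (τ c) hζ.toInteger
    have h2 : algebraMap (𝓞 K) K hζ.toInteger = ζ := rfl
    rw [h2] at h
    rw [show (((galRestrict ℤ ℚ K (𝓞 K) (τ c) hζ.toInteger) ^ c : 𝓞 K) : K) =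
      algebraMap (𝓞 K) K ((galRestrict ℤ ℚ K (𝓞 K) (τ c) hζ.toInteger) ^ c) from rfl,
      map_pow, h, hτ c hc]
    rfl
  -- membership
  have hmem : ∀ c ∈ exponentSet p, J ∈ 𝔮.map (galRestrict ℤ ℚ K (𝓞 K) (τ c)) := by
    intro c hc
    have hσ : (τ c)⁻¹ ζ = ζ ^ c := by
      have h1 : (τ c)⁻¹ ((τ c ζ) ^ c) = (τ c)⁻¹ ζ := by rw [hτ c hc]
      rw [map_pow] at h1
      rw [← h1]
      congr 1
      exact (τ c).symm_apply_apply ζ
    have h := hJmem c (τ c)⁻¹ hc hσ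
    have h3 : J = galRestrict ℤ ℚ K (𝓞 K) (τ c) (galRestrict ℤ ℚ K (𝓞 K) (τ c)⁻¹ J) := by
      rw [map_inv]
      exact ((galRestrict ℤ ℚ K (𝓞 K) (τ c)).apply_symm_apply J).symm
    rw [h3]
    exact Ideal.mem_map_of_mem _ h
  -- distinctness
  have hdist : ∀ c ∈ exponentSet p, ∀ c' ∈ exponentSet p,
      𝔮.map (galRestrict ℤ ℚ K (𝓞 K) (τ c)) = 𝔮.map (galRestrict ℤ ℚ K (𝓞 K) (τ c')) →
      c = c' := by
    intro c hc c' hc' heq
    have hc1 := (mem_exponentSet.mp hc).2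
    have hc1' := (mem_exponentSet.mp hc').2
    exact map_galRestrict_inj hζ 𝔮 hℓ hℓp hN (by omega) (by omega) (τ c) (τ c') (hτ c hc)
      (hτ c' hc') heq
  -- the product divides `(J)`
  have hdvd : ∏ c ∈ exponentSet p, 𝔮.map (galRestrict ℤ ℚ K (𝓞 K) (τ c)) ∣ Ideal.span {J} := by
    refine Finset.prod_dvd_of_coprime ?_ fun c hc => Ideal.dvd_span_singleton.mpr (hmem c hc)
    intro c hc c' hc' hcc'
    rw [Function.onFun, Ideal.isCoprime_iff_sup_eq]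
    exact (hmaxmap c).coprime_of_ne (hmaxmap c') fun h => hcc' (hdist c hc c' hc' h)
  obtain ⟨𝔟, h𝔟⟩ := hdvd
  have hJ0 : J ≠ 0 := by
    rintro rfl
    rw [Set.singleton_zero, Ideal.span_zero, Ideal.absNorm_bot] at hJN
    exact (pow_ne_zero _ hℓ.ne_zero) hJN.symm
  refine ⟨J, hJ0, ?_⟩
  have hNprod : Ideal.absNorm (∏ c ∈ exponentSet p, 𝔮.map (galRestrict ℤ ℚ K (𝓞 K) (τ c))) =
      ℓ ^ ((p - 1) / 2) := by
    rw [map_prod, Finset.prod_congr rfl fun c _ => hNmap c, Finset.prod_const,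
      card_exponentSet hodd]
  have h𝔟top : 𝔟 = ⊤ := by
    rw [← Ideal.absNorm_eq_one_iff]
    have := congrArg Ideal.absNorm h𝔟
    rw [map_mul, hJN, hNprod] at this
    have hpos : 0 < ℓ ^ ((p - 1) / 2) := pow_pos hℓ.pos _
    exact (Nat.eq_of_mul_eq_mul_left hpos (by rw [mul_one]; exact this.symm))
  rw [h𝔟, h𝔟top, Ideal.mul_top]

end Cyclotomic

end Fermat.Agent.CFT.Stick
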