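/-
Consumer side of the Stickelberger computation (CFT project, S14):
the eigenvalue `∑_{0 < c < p/2} c` is prime to `p`, and reciprocity for the Jacobi sum forces
the Frobenius of a degree-one prime to be trivial.
-/
import Fermat.Agent.CFT.Stick.Jacobi

set_option autoImplicit false

open scoped NumberField

namespace Fermat.Agent.CFT.Stick

open Stickelberger

/-- `2 * ∑_{c=1}^{n} c = n (n+1)`. -/
theorem two_mul_sum_Icc_id (n : ℕ) : 2 * ∑ c ∈ Finset.Icc 1 n, c = n * (n + 1) := by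
  induction n with
  | zero => simp
  | succ n ih =>
    rw [Finset.sum_Icc_succ_top (by omega), mul_add, ih]
    ring

/-- `8 * ∑_{0 < c < p/2} c + 1 = p²` for odd `p`. -/
theorem eight_mul_eigenvalueScalar {p : ℕ} (hodd : p % 2 = 1) :
    8 * eigenvalueScalar p + 1 = p ^ 2 := by
  have h := two_mul_sum_Icc_id ((p - 1) / 2)
  rw [eigenvalueScalar, exponentSet_eq_Icc hodd]
  obtain ⟨n, rfl⟩ : ∃ n, p = 2 * n + 1 := ⟨p / 2, by omega⟩
  have hn : (2 * n + 1 - 1) / 2 = n := by omega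
  rw [hn] at h ⊢
  calc 8 * ∑ c ∈ Finset.Icc 1 n, c + 1 = 4 * (2 * ∑ c ∈ Finset.Icc 1 n, c) + 1 := by ring
    _ = 4 * (n * (n + 1)) + 1 := by rw [h]
    _ = (2 * n + 1) ^ 2 := by ring

/-- The Stickelberger eigenvalue `∑_{0 < c < p/2} c = (p² - 1)/8` is prime to an odd prime `p`. -/
theorem not_dvd_eigenvalueScalar {p : ℕ} (hp : p.Prime) (hp2 : p ≠ 2) :
    ¬ p ∣ eigenvalueScalar p := by
  intro hdvd
  have hodd : p % 2 = 1 := hp.eq_two_or_odd.resolve_left hp2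
  have h := eight_mul_eigenvalueScalar hodd
  have h1 : p ∣ 8 * eigenvalueScalar p := Dvd.dvd.mul_left hdvd 8
  have h2 : p ∣ p ^ 2 := dvd_pow_self p two_ne_zero
  rw [← h] at h2
  have h3 : p ∣ 1 := (Nat.dvd_add_right h1).mp h2
  exact hp.one_lt.ne' (Nat.dvd_one.mp h3)

/-- In a group, `g ^ p = 1` and `g ^ (∑_{0 < c < p/2} c) = 1` force `g = 1` (`p` an odd prime). -/
theorem eq_one_of_pow_eigenvalueScalar {p : ℕ} (hp : p.Prime) (hp2 : p ≠ 2) {G : Type*} [Group G]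
    (g : G) (hg : g ^ p = 1) (hg' : g ^ eigenvalueScalar p = 1) : g = 1 := by
  have h1 : orderOf g ∣ p := orderOf_dvd_of_pow_eq_one hg
  have h2 : orderOf g ∣ eigenvalueScalar p := orderOf_dvd_of_pow_eq_one hg'
  rcases (Nat.dvd_prime hp).mp h1 with h | h
  · exact orderOf_eq_one_iff.mp h
  · exact absurd (h ▸ h2) (not_dvd_eigenvalueScalar hp hp2)

section Cyclotomic

variable {p : ℕ} [hp : Fact p.Prime] {K : Type*} [Field K] [NumberField K]
  [hK : IsCyclotomicExtension {p} ℚ K]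

/-- **Consumer lemma.**  Let `𝔮` be a degree-one prime of `K = ℚ(ζ_p)` not above `p`, and
`τ c = σ_c⁻¹` for `0 < c < p/2`.  Suppose a `G`-valued symbol `Frob` on ideals (`G` a commutative
group, e.g. `Gal(L/K)`) satisfies
* equivariance: `Frob (τ_c 𝔮) = g ^ c` (with `g = Frob 𝔮`, `g ^ p = 1`), and
* reciprocity for the Jacobi sum: the product of `Frob` over the prime factors of a principal
  ideal `(J) = ∏_{0<c<p/2} τ_c 𝔮` is trivial.
Then `g = 1`. -/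
theorem frob_eq_one_of_recip (hp2 : p ≠ 2) {ζ : K} (hζ : IsPrimitiveRoot ζ p)
    (𝔮 : Ideal (𝓞 K)) [𝔮.IsPrime] {ℓ : ℕ} (hℓ : ℓ.Prime) (hℓp : ℓ ≠ p)
    (hN : Ideal.absNorm 𝔮 = ℓ) (τ : ℕ → (K ≃ₐ[ℚ] K))
    (hτ : ∀ c ∈ exponentSet p, (τ c ζ) ^ c = ζ)
    {G : Type*} [CommGroup G] (Frob : Ideal (𝓞 K) → G) (g : G) (hg : g ^ p = 1)
    (hequiv : ∀ c ∈ exponentSet p, Frob (𝔮.map (galRestrict ℤ ℚ K (𝓞 K) (τ c))) = g ^ c)
    (hrecip : ∀ J : 𝓞 K, J ≠ 0 →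
      ∏ c ∈ exponentSet p, 𝔮.map (galRestrict ℤ ℚ K (𝓞 K) (τ c)) = Ideal.span {J} →
      ∏ c ∈ exponentSet p, Frob (𝔮.map (galRestrict ℤ ℚ K (𝓞 K) (τ c))) = 1) :
    g = 1 := by
  obtain ⟨J, hJ0, hJ⟩ := exists_jacobi_generator hp2 hζ 𝔮 hℓ hℓp hN τ hτ
  have h := hrecip J hJ0 hJ
  rw [Finset.prod_congr rfl hequiv, Finset.prod_pow_eq_pow_sum] at h
  exact eq_one_of_pow_eigenvalueScalar hp.out hp2 g hg h

end Cyclotomic

end Fermat.Agent.CFT.Stick
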